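import Fermat.Agent.S51.Defs

/-!
# S51, TorsionAlg helper: basic facts on doubling and x-coordinates (owner: helper14)
-/

set_option autoImplicit false

namespace Fermat.Agent.S51

open WeierstrassCurve

section Ring

variable {F : Type*} [CommRing F] (W : WeierstrassCurve F)

/-- Bezout identity for the duplication polynomials `R`, `S`. -/
theorem bezout_RS (x : F) :
    (-48 * x ^ 2 - 8 * W.b₂ * x + W.b₂ ^ 2 - 32 * W.b₄) * Rpoly W x +
      (12 * x ^ 3 - W.b₂ * x ^ 2 - 10 * W.b₄ * x + W.b₂ * W.b₄ - 27 * W.b₆) * Spoly W x =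
      W.Δ := by
  simp only [Rpoly, Spoly, WeierstrassCurve.Δ]
  linear_combination (12 * x ^ 2 + 2 * W.b₂ * x + 8 * W.b₄) * W.b_relation

/-- On the curve, `S(x) = (y - negY x y)² = (2y + a₁x + a₃)²`. -/
theorem Spoly_eq_sq {x y : F} (h : W.toAffine.Equation x y) :
    Spoly W x = (y - W.toAffine.negY x y) ^ 2 := by
  rw [Affine.equation_iff] at h
  simp only [Spoly, Affine.negY, WeierstrassCurve.b₂, WeierstrassCurve.b₄, WeierstrassCurve.b₆]
  linear_combination (-4 : F) * h

end Ring

section Field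

variable {F : Type*} [Field F] (W : WeierstrassCurve F)

theorem Rpoly_ne_zero_of_Spoly_eq_zero (hΔ : W.Δ ≠ 0) {x : F} (hS : Spoly W x = 0) :
    Rpoly W x ≠ 0 := by
  intro hR
  apply hΔ
  rw [← bezout_RS W x, hS, hR]
  ring

@[simp] theorem px_zero : px (0 : W.toAffine.Point) = 0 := rfl

@[simp] theorem px_some {x y : F} (h : W.toAffine.Nonsingular x y) :
    px (Affine.Point.some x y h) = x := rfl

theorem px_neg' (P : W.toAffine.Point) : px (-P) = px P := by
  cases P with
  | zero => rfl
  | some x y h => rfl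

/-- Two nonzero points with the same x-coordinate are equal or opposite. -/
theorem eq_or_eq_neg_of_px_eq {P Q : W.toAffine.Point} (hP : P ≠ 0) (hQ : Q ≠ 0)
    (h : px P = px Q) : P = Q ∨ P = -Q := by
  cases P with
  | zero => exact absurd rfl hP
  | some x₁ y₁ h₁ =>
    cases Q with
    | zero => exact absurd rfl hQ
    | some x₂ y₂ h₂ =>
      exact Affine.Point.X_eq_iff.mp h

variable [DecidableEq F]

/-- A nonzero point is 2-torsion iff `S` vanishes at its x-coordinate. -/
theorem two_nsmul_eq_zero_iff {P : W.toAffine.Point} (hP : P ≠ 0) :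
    2 • P = 0 ↔ Spoly W (px P) = 0 := by
  cases P with
  | zero => exact absurd rfl hP
  | some x y h =>
    rw [two_nsmul, px_some, Spoly_eq_sq W h.1]
    by_cases hy : y = W.toAffine.negY x y
    · rw [Affine.Point.add_self_of_Y_eq hy]
      refine ⟨fun _ => ?_, fun _ => rfl⟩
      rw [sub_eq_zero.mpr hy]
      ring
    · rw [Affine.Point.add_self_of_Y_ne hy]
      refine ⟨fun h0 => absurd h0 (Affine.Point.some_ne_zero _), fun h0 => ?_⟩
      exact absurd (sub_eq_zero.mp ((pow_eq_zero_iff (two_ne_zero)).mp h0)) hy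

/-- The duplication formula on x-coordinates. -/
theorem dup_rel {P : W.toAffine.Point} (hP : P ≠ 0) (h2 : 2 • P ≠ 0) :
    px (2 • P) * Spoly W (px P) = Rpoly W (px P) := by
  cases P with
  | zero => exact absurd rfl hP
  | some x y h =>
    have hy : y ≠ W.toAffine.negY x y := by
      intro hy
      apply h2
      rw [two_nsmul, Affine.Point.add_self_of_Y_eq hy]
    have hy' : y - W.toAffine.negY x y ≠ 0 := sub_ne_zero.mpr hy
    rw [two_nsmul, Affine.Point.add_self_of_Y_ne hy, px_some, px_some, Spoly_eq_sq W h.1,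
      Affine.slope_of_Y_ne rfl hy]
    have heq := (Affine.equation_iff x y).mp h.1
    set d := y - W.toAffine.negY x y with hd
    set n := 3 * x ^ 2 + 2 * W.toAffine.a₂ * x + W.toAffine.a₄ - W.toAffine.a₁ * y with hn
    have hℓ : n / d * d = n := div_mul_cancel₀ n hy'
    have e1 : W.toAffine.addX x x (n / d) * d ^ 2 =
        (n / d * d) ^ 2 + W.toAffine.a₁ * (n / d * d) * d - (W.toAffine.a₂ + 2 * x) * d ^ 2 := by
      simp only [Affine.addX]
      ring
    rw [e1, hℓ, hd, hn]
    simp only [Affine.negY, Rpoly, WeierstrassCurve.b₄, WeierstrassCurve.b₆,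
      WeierstrassCurve.b₈]
    linear_combination (-(W.a₁ ^ 2) - 4 * W.a₂ - 8 * x) * heq

end Field

end Fermat.Agent.S51
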