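import Fermat.Agent.S51.TorsionAlg.Base

/-!
# S51, TorsionAlg helper: existence of points with a given x-coordinate, and counting points by
x-coordinate (owner: helper14)
-/

set_option autoImplicit false

namespace Fermat.Agent.S51

open WeierstrassCurve

variable {F : Type*} [Field F] (W : WeierstrassCurve F)

/-- Over an algebraically closed field every `x` is the x-coordinate of a point. -/
theorem exists_point [IsAlgClosed F] (hΔ : W.Δ ≠ 0) (x : F) :
    ∃ P : W.toAffine.Point, P ≠ 0 ∧ px P = x := by
  have hdeg : (Polynomial.C (1 : F) * Polynomial.X ^ 2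
      + Polynomial.C (W.a₁ * x + W.a₃) * Polynomial.X
      + Polynomial.C (-(x ^ 3 + W.a₂ * x ^ 2 + W.a₄ * x + W.a₆)) : Polynomial F).degree ≠ 0 := by
    rw [Polynomial.degree_quadratic one_ne_zero]
    decide
  obtain ⟨y, hy⟩ := IsAlgClosed.exists_root _ hdeg
  have heq : W.toAffine.Equation x y := by
    rw [Affine.equation_iff]
    simp only [Polynomial.IsRoot, Polynomial.eval_add, Polynomial.eval_mul, Polynomial.eval_C,
      Polynomial.eval_pow, Polynomial.eval_X] at hy
    linear_combination hy
  have hns : W.toAffine.Nonsingular x y :=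
    (Affine.equation_iff_nonsingular_of_Δ_ne_zero hΔ).mp heq
  exact ⟨Affine.Point.some x y hns, Affine.Point.some_ne_zero hns, rfl⟩

/-- A finite set of points whose nonzero members have x-coordinates in `T` has at most
`2 * #T + 1` elements. -/
theorem card_le_of_px_mem (s : Finset W.toAffine.Point) (T : Finset F)
    (h : ∀ P ∈ s, P ≠ 0 → px P ∈ T) : s.card ≤ 2 * T.card + 1 := by
  classical
  have h1 : (s.filter (fun P => P ≠ 0)).card ≤ 2 * T.card := by
    refine Finset.card_le_mul_card_image_of_maps_to (f := px) ?_ 2 ?_
    · intro P hP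
      rw [Finset.mem_filter] at hP
      exact h P hP.1 hP.2
    · intro b _
      by_cases hex : ∃ P ∈ s.filter (fun P => P ≠ 0), px P = b
      · obtain ⟨P, hP, rfl⟩ := hex
        have hsub : (s.filter (fun P => P ≠ 0)).filter (fun Q => px Q = px P) ⊆ {P, -P} := by
          intro Q hQ
          rw [Finset.mem_filter, Finset.mem_filter] at hQ
          rw [Finset.mem_insert, Finset.mem_singleton]
          exact eq_or_eq_neg_of_px_eq W hQ.1.2 (Finset.mem_filter.mp hP).2 hQ.2
        exact (Finset.card_le_card hsub).trans Finset.card_le_two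
      · have hempty : (s.filter (fun P => P ≠ 0)).filter (fun Q => px Q = b) = ∅ := by
          rw [Finset.filter_eq_empty_iff]
          intro Q hQ hb
          exact hex ⟨Q, hQ, hb⟩
        rw [hempty, Finset.card_empty]
        exact Nat.zero_le 2
  have h2 : (s.filter (fun P => ¬ (P ≠ 0))).card ≤ 1 := by
    have hsub : s.filter (fun P => ¬ (P ≠ 0)) ⊆ {0} := by
      intro Q hQ
      rw [Finset.mem_filter] at hQ
      rw [Finset.mem_singleton]
      exact not_not.mp hQ.2
    exact (Finset.card_le_card hsub).trans (Finset.card_singleton _).le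
  have h3 := Finset.card_filter_add_card_filter_not (s := s) (fun P => P ≠ 0)
  omega

end Fermat.Agent.S51
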