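import Fermat.Agent.S51.TorsionAlg.PolyDefs

/-!
# S51, TorsionAlg helper: the derivative of `N` at a root of `ψ₃`
FROZEN INTERFACE: replace `sorry` only.
-/

set_option autoImplicit false

namespace Fermat.Agent.S51

open WeierstrassCurve Polynomial

variable {F : Type*} [Field F] (W : WeierstrassCurve F)

/-- Pure algebra: the evaluated derivative of `N`, after substituting `ρ = x s` and
`ρ' = x s' - 2 s`, equals `3 s⁵` modulo the explicit forms of `R` and `S`. -/
private theorem NPderiv_key (b₂ b₄ b₆ b₈ x s s' : F)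
    (h1 : x ^ 4 - b₄ * x ^ 2 - 2 * b₆ * x - b₈ = x * s)
    (h2 : 4 * x ^ 3 + b₂ * x ^ 2 + 2 * b₄ * x + b₆ = s) :
    (4 * (x * s) ^ 3 - 2 * b₄ * (x * s) * s ^ 2 - 2 * b₆ * s ^ 3) * (x * s' - 2 * s)
      + (-2 * b₄ * (x * s) ^ 2 * s - 6 * b₆ * (x * s) * s ^ 2 - 4 * b₈ * s ^ 3) * s'
      - (4 * (x * s) ^ 3 * s + b₂ * (x * s) ^ 2 * s ^ 2 + 2 * b₄ * (x * s) * s ^ 3 + b₆ * s ^ 4)
      - x * ((12 * (x * s) ^ 2 * s + 2 * b₂ * (x * s) * s ^ 2 + 2 * b₄ * s ^ 3) * (x * s' - 2 * s)
        + (4 * (x * s) ^ 3 + 2 * b₂ * (x * s) ^ 2 * s + 6 * b₄ * (x * s) * s ^ 2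
          + 4 * b₆ * s ^ 3) * s')
      = 3 * s ^ 5 := by
  linear_combination (4 * s' * s ^ 3) * h1 + (3 * s ^ 4 - 4 * s' * s ^ 3 * x) * h2

private theorem NPderiv_eval_SpolyP (x : F) : (SpolyP W).eval x = Spoly W x := by
  simp only [SpolyP, Spoly, eval_add, eval_mul, eval_pow, eval_C, eval_X]

private theorem NPderiv_eval_RpolyP (x : F) : (RpolyP W).eval x = Rpoly W x := by
  simp only [RpolyP, Rpoly, eval_sub, eval_mul, eval_pow, eval_C, eval_X]

private theorem NPderiv_eval_derivative_SpolyP (x : F) :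
    (derivative (SpolyP W)).eval x = 12 * x ^ 2 + 2 * W.b₂ * x + 2 * W.b₄ := by
  simp only [SpolyP, derivative_add, derivative_mul, derivative_pow, derivative_C, derivative_X,
    eval_add, eval_mul, eval_pow, eval_C, eval_X, eval_zero, eval_one]
  push_cast
  ring

private theorem NPderiv_eval_derivative_RpolyP (x : F) :
    (derivative (RpolyP W)).eval x = 4 * x ^ 3 - 2 * W.b₄ * x - 2 * W.b₆ := by
  simp only [RpolyP, derivative_sub, derivative_mul, derivative_pow, derivative_C, derivative_X,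
    eval_sub, eval_add, eval_mul, eval_pow, eval_C, eval_X, eval_zero, eval_one]
  push_cast
  ring

/-- At a root of `ψ₃`, the derivative of `N` is `3 S⁵`. -/
theorem NP_derivative_eval {x : F} (h : psi3 W x = 0) :
    (derivative (NP W)).eval x = 3 * Spoly W x ^ 5 := by
  -- the four evaluated quantities
  have hs : (SpolyP W).eval x = Spoly W x := NPderiv_eval_SpolyP W x
  have hρ : (RpolyP W).eval x = x * Spoly W x := by
    rw [NPderiv_eval_RpolyP]
    have := psi3_eq W x
    rw [h] at this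
    linear_combination this
  have hs' := NPderiv_eval_derivative_SpolyP W x
  have hρ' : (derivative (RpolyP W)).eval x
      = x * (12 * x ^ 2 + 2 * W.b₂ * x + 2 * W.b₄) - 2 * Spoly W x := by
    rw [NPderiv_eval_derivative_RpolyP]
    simp only [Spoly]
    ring
  -- explicit forms
  have h1 : x ^ 4 - W.b₄ * x ^ 2 - 2 * W.b₆ * x - W.b₈ = x * Spoly W x := by
    have := psi3_eq W x
    rw [h] at this
    simp only [Rpoly] at this
    linear_combination this
  have h2 : 4 * x ^ 3 + W.b₂ * x ^ 2 + 2 * W.b₄ * x + W.b₆ = Spoly W x := rfl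
  have key := NPderiv_key W.b₂ W.b₄ W.b₆ W.b₈ x (Spoly W x)
    (12 * x ^ 2 + 2 * W.b₂ * x + 2 * W.b₄) h1 h2
  simp only [NP, derivative_sub, derivative_add, derivative_mul, derivative_pow, derivative_C,
    derivative_X, eval_sub, eval_add, eval_mul, eval_pow, eval_C, eval_X, eval_zero, eval_one,
    hs, hρ, hs', hρ']
  push_cast
  linear_combination key

end Fermat.Agent.S51
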