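import Fermat.Agent.S51.TorsionAlg.PolyDefs

/-!
# S51, TorsionAlg helper: evaluation and degree of the polynomials `S`, `R`, `ψ₃`, `N`
FROZEN INTERFACE: replace `sorry` only.
-/

set_option autoImplicit false

namespace Fermat.Agent.S51

open WeierstrassCurve Polynomial

variable {F : Type*} [Field F] (W : WeierstrassCurve F)

theorem SpolyP_eval (x : F) : (SpolyP W).eval x = Spoly W x := by
  simp [SpolyP, Spoly]

theorem RpolyP_eval (x : F) : (RpolyP W).eval x = Rpoly W x := by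
  simp [RpolyP, Rpoly]

theorem psi3P_eval (x : F) : (psi3P W).eval x = psi3 W x := by
  simp [psi3P, psi3]

theorem NP_eval (x : F) : (NP W).eval x =
    Rpoly W x ^ 4 - W.b₄ * Rpoly W x ^ 2 * Spoly W x ^ 2 - 2 * W.b₆ * Rpoly W x * Spoly W x ^ 3
      - W.b₈ * Spoly W x ^ 4
      - x * (4 * Rpoly W x ^ 3 * Spoly W x + W.b₂ * Rpoly W x ^ 2 * Spoly W x ^ 2
        + 2 * W.b₄ * Rpoly W x * Spoly W x ^ 3 + W.b₆ * Spoly W x ^ 4) := by
  simp [NP, SpolyP_eval, RpolyP_eval]

/-- If `x₂ S(x) = R(x)` (i.e. `x₂ = x(2P)`), then `N(x) = S(x)⁴ (R(x₂) - x S(x₂))`. -/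
theorem NP_eval_of_dup {x x₂ : F} (h : x₂ * Spoly W x = Rpoly W x) :
    (NP W).eval x = Spoly W x ^ 4 * (Rpoly W x₂ - x * Spoly W x₂) := by
  rw [NP_eval, ← h]
  generalize Spoly W x = s
  simp only [Rpoly, Spoly]
  ring

theorem psi3P_natDegree [CharZero F] : (psi3P W).natDegree = 4 := by
  unfold psi3P
  compute_degree!

theorem psi3P_ne_zero [CharZero F] : psi3P W ≠ 0 := by
  intro h
  have h4 := psi3P_natDegree W
  rw [h, natDegree_zero] at h4
  exact absurd h4 (by norm_num)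

theorem NP_natDegree [CharZero F] : (NP W).natDegree = 16 := by
  unfold NP RpolyP SpolyP
  compute_degree!

theorem NP_ne_zero [CharZero F] : NP W ≠ 0 := by
  intro h
  have h16 := NP_natDegree W
  rw [h, natDegree_zero] at h16
  exact absurd h16 (by norm_num)

end Fermat.Agent.S51
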