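import Fermat.Agent.S51.TorsionAlg.Base

/-!
# S51, TorsionAlg helper: the polynomials `S`, `R`, `ψ₃` and `N` as elements of `F[X]`
(owner: helper14)

`NP W = R_h(R, S) - X * S_h(R, S)` where `R_h(U,V) = U⁴ - b₄U²V² - 2b₆UV³ - b₈V⁴` and
`S_h(U,V) = 4U³V + b₂U²V² + 2b₄UV³ + b₆V⁴` are the homogenised duplication polynomials.
If `x₂ S(x) = R(x)` then `N(x) = S(x)⁴ (R(x₂) - x S(x₂))`, so `N` vanishes at `x(P)` whenever
`x(4P) = x(P)`.
-/

set_option autoImplicit false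

namespace Fermat.Agent.S51

open WeierstrassCurve Polynomial

variable {F : Type*} [Field F] (W : WeierstrassCurve F)

/-- `S` as a polynomial. -/
noncomputable def SpolyP : F[X] :=
  C 4 * X ^ 3 + C W.b₂ * X ^ 2 + C (2 * W.b₄) * X + C W.b₆

/-- `R` as a polynomial. -/
noncomputable def RpolyP : F[X] :=
  X ^ 4 - C W.b₄ * X ^ 2 - C (2 * W.b₆) * X - C W.b₈

/-- `ψ₃` as a polynomial. -/
noncomputable def psi3P : F[X] :=
  C 3 * X ^ 4 + C W.b₂ * X ^ 3 + C (3 * W.b₄) * X ^ 2 + C (3 * W.b₆) * X + C W.b₈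

/-- The polynomial `N` whose roots are the x-coordinates of the points with `4P = ±P`. -/
noncomputable def NP : F[X] :=
  RpolyP W ^ 4 - C W.b₄ * RpolyP W ^ 2 * SpolyP W ^ 2 - C (2 * W.b₆) * RpolyP W * SpolyP W ^ 3
    - C W.b₈ * SpolyP W ^ 4
    - X * (C 4 * RpolyP W ^ 3 * SpolyP W + C W.b₂ * RpolyP W ^ 2 * SpolyP W ^ 2
      + C (2 * W.b₄) * RpolyP W * SpolyP W ^ 3 + C W.b₆ * SpolyP W ^ 4)

end Fermat.Agent.S51
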